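import Fermat.Agent.MF.Mult.Module

/-!
# Eigensystems of all Hecke operators on the localised module

At a non-Eisenstein prime, a character of the Hecke polynomials that kills the annihilator of the
localised module is afforded by an eigenform, also at the primes dividing the level.
-/

set_option autoImplicit false

noncomputable section

open scoped MatrixGroups
open CongruenceSubgroup ModularCurve.Period MvPolynomial

namespace FermatAgent.MF.Mult

open FermatAgent.HM

variable {O : Type} [CommRing O] [IsAddTorsionFree O] {L M : ℕ} [NeZero M] {ι : Type}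
variable {pr : ι → HPrime L} {𝔪 : Ideal (MvPolynomial ι O)} [𝔪.IsPrime]

variable (pr 𝔪) in
/-- A Hecke polynomial agrees with an element of the Hecke algebra. -/
def IsPolyCompat (t : CuspForm.heckeAlgebra M 2 {ℓ | ¬ ∃ i, ((pr i).1.1 : ℕ) = ℓ})
    (P : MvPolynomial ι O) : Prop :=
  ∀ (z : TrivH1 O M pr O) (hz : trivHom O M pr O z ∈ parabolicHoms O (Gamma0 M) O),
    P • (LocalizedModule.mk z 1 : TrivLoc (M := M) pr 𝔪) =
      LocalizedModule.mk ((trivHom O M pr O).symm
      (Period.parAction M _ O O t ⟨_, hz⟩).1) 1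

omit [IsAddTorsionFree O] in
lemma trivHom_X_eq (i : ι) (z : TrivH1 O M pr O) :
    trivHom O M pr O ((MvPolynomial.X i : MvPolynomial ι O) • z) =
      Period.heckeOp O M (pr i).1.2 (trivHom O M pr O z) := by
  have : Fact (pr i).1.1.Prime := ⟨(pr i).1.2⟩
  rw [trivHom_X]
  by_cases hd : ((pr i).1.1 : ℕ) ∣ M
  · exact homOp_heckeCorr_dvd (pr i).2 hd _
  · exact homOp_heckeCorr_eq (pr i).2 hd _

lemma exists_polyCompat (t : CuspForm.heckeAlgebra M 2 {ℓ | ¬ ∃ i, ((pr i).1.1 : ℕ) = ℓ}) :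
    ∃ P, IsPolyCompat pr 𝔪 t P := by
  obtain ⟨t, ht⟩ := t
  induction ht using Algebra.adjoin_induction with
  | mem e he =>
    obtain ⟨ℓ, hℓ, hS, rfl⟩ := MF.exists_eq_heckeAt_of_mem_heckeGenerators he
    simp only [Set.mem_ofPred_eq, not_not] at hS
    obtain ⟨i, hi⟩ := hS
    subst hi
    refine ⟨MvPolynomial.X i, fun z hz => ?_⟩
    rw [Period.parAction_heckeAt O O hℓ, LocalizedModule.smul'_mk]
    · refine congrArg (fun w => LocalizedModule.mk w _) ((trivHom O M pr O).injective ?_)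
      rw [trivHom_X_eq, LinearEquiv.apply_symm_apply]
    · simp only [Set.mem_ofPred_eq, not_not]
      exact ⟨i, rfl⟩
  | algebraMap r =>
    refine ⟨(r : MvPolynomial ι O), fun z hz => ?_⟩
    rw [show (⟨algebraMap ℤ _ r, algebraMap_mem _ r⟩ : CuspForm.heckeAlgebra M 2 _) =
      algebraMap ℤ _ r from rfl, eq_intCast, map_intCast, Int.cast_smul_eq_zsmul,
      Module.End.intCast_apply, Submodule.coe_smul_of_tower, map_zsmul,
      LinearEquiv.symm_apply_apply]
    exact (map_zsmul (LocalizedModule.mkLinearMap 𝔪.primeCompl (TrivH1 O M pr O)) r z).symm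
  | add u v hu hv ihu ihv =>
    obtain ⟨a, ha⟩ := ihu
    obtain ⟨b, hb⟩ := ihv
    refine ⟨a + b, fun z hz => ?_⟩
    rw [show (⟨u + v, add_mem hu hv⟩ : CuspForm.heckeAlgebra M 2 _) = ⟨u, hu⟩ + ⟨v, hv⟩ from rfl,
      map_add, LinearMap.add_apply, Submodule.coe_add, map_add, add_smul, ha z hz, hb z hz,
      LocalizedModule.mk_add_mk]
    simp
  | mul u v hu hv ihu ihv =>
    obtain ⟨a, ha⟩ := ihu
    obtain ⟨b, hb⟩ := ihv
    refine ⟨a * b, fun z hz => ?_⟩
    rw [show (⟨u * v, mul_mem hu hv⟩ : CuspForm.heckeAlgebra M 2 _) = ⟨u, hu⟩ * ⟨v, hv⟩ from rfl,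
      map_mul, Module.End.mul_apply, mul_smul, hb z hz,
      ha _ (by rw [LinearEquiv.apply_symm_apply]; exact Subtype.mem _)]
    simp only [LinearEquiv.apply_symm_apply]

/-- **Every eigensystem of all operators is that of an eigenform.** -/
theorem exists_eigenform_of_hom (i₀ : ι) (hi₀ : (((pr i₀).1.1 : ℕ) : ZMod M) = 1)
    (hne : MvPolynomial.X i₀ - C (((pr i₀).1.1 : ℕ) + 1 : O) ∉ 𝔪) {K : Type} [Field K]
    [IsAlgClosed K] (lam : MvPolynomial ι O →+* K)
    (hlam : ∀ P : MvPolynomial ι O, (∀ x : TrivLoc (M := M) pr 𝔪, P • x = 0) → lam P = 0)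
    (τ : integralClosure ℤ K →+* ℂ) :
    ∃ f : CuspForm (Gamma0 M) 2, f.IsNormalizedEigenform ∧
      ∀ i : ι, ∃ a : integralClosure ℤ K, (a : K) = lam (MvPolynomial.X i) ∧
        ModularFormClass.qCoeff (⇑f) (pr i).1.1 = τ a := by
  classical
  let S : Set ℕ := {ℓ | ¬ ∃ i, ((pr i).1.1 : ℕ) = ℓ}
  let φ : CuspForm.heckeAlgebra M 2 S → MvPolynomial ι O := fun t =>
    (exists_polyCompat (pr := pr) (𝔪 := 𝔪) t).choose
  have hφ : ∀ t, IsPolyCompat pr 𝔪 t (φ t) := fun t =>
    (exists_polyCompat (pr := pr) (𝔪 := 𝔪) t).choose_spec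
  have uniq : ∀ t P, IsPolyCompat pr 𝔪 t P → lam (φ t) = lam P := fun t P hP => by
    rw [← sub_eq_zero, ← map_sub]
    refine hlam _ fun x => ?_
    obtain ⟨s, z, hs, hz, hsx⟩ := exists_unit_smul_mem pr 𝔪 i₀ hi₀ hne x
    refine ((Module.End.isUnit_iff _).mp (IsLocalizedModule.map_units
      (LocalizedModule.mkLinearMap 𝔪.primeCompl (TrivH1 O M pr O))
      (⟨s, hs⟩ : 𝔪.primeCompl))).1 ?_
    show s • ((φ t - P) • x) = s • (0 : TrivLoc (M := M) pr 𝔪)
    rw [smul_comm, hsx, smul_zero, sub_smul, sub_eq_zero, hφ t z hz, hP z hz]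
  let χ : CuspForm.heckeAlgebra M 2 S →+* K :=
    { toFun := fun t => lam (φ t)
      map_one' := (uniq 1 1 fun z hz => by simp).trans (map_one lam)
      map_zero' := (uniq 0 0 fun z hz => by simp).trans (map_zero lam)
      map_add' := fun u v => (uniq _ _ (fun z hz => by
        rw [map_add, LinearMap.add_apply, Submodule.coe_add, map_add, add_smul, hφ u z hz,
          hφ v z hz, LocalizedModule.mk_add_mk]
        simp)).trans (map_add lam _ _)
      map_mul' := fun u v => (uniq _ _ (fun z hz => by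
        rw [map_mul, Module.End.mul_apply, mul_smul, hφ v z hz,
          hφ u _ (by rw [LinearEquiv.apply_symm_apply]; exact Subtype.mem _)]
        simp only [LinearEquiv.apply_symm_apply])).trans (map_mul lam _ _) }
  obtain ⟨f, hf, hfχ⟩ := exists_eigenform_of_char τ χ
  refine ⟨f, hf, fun i => ?_⟩
  have hS : ((pr i).1.1 : ℕ) ∉ S := by
    simp only [S, Set.mem_ofPred_eq, not_not]
    exact ⟨i, rfl⟩
  have hX : χ (atPrime M S (pr i).1.2 hS) = lam (MvPolynomial.X i) := uniq _ _ fun z hz => by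
    rw [Period.parAction_heckeAt O O (pr i).1.2 hS, LocalizedModule.smul'_mk]
    refine congrArg (fun w => LocalizedModule.mk w _) ((trivHom O M pr O).injective ?_)
    rw [trivHom_X_eq, LinearEquiv.apply_symm_apply]
  exact ⟨⟨_, hX ▸ isIntegral_char χ _⟩, rfl, hfχ _ (pr i).1.2 hS _ hX.symm⟩

/-- **Every point of the algebra of Hecke polynomials is that of an eigenform.** -/
theorem exists_eigenform_of_loc (i₀ : ι) (hi₀ : (((pr i₀).1.1 : ℕ) : ZMod M) = 1)
    (hne : MvPolynomial.X i₀ - C (((pr i₀).1.1 : ℕ) + 1 : O) ∉ 𝔪) {K : Type} [Field K]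
    [CharZero K] [IsAlgClosed K] (lam : locAlgebra M pr 𝔪 →+* K) :
    ∃ (f : CuspForm (Gamma0 M) 2) (σ : integralClosure ℤ ℂ →+* K) (_ : f.IsNormalizedEigenform),
      ∀ i, ∃ a : integralClosure ℤ ℂ, (a : ℂ) = ModularFormClass.qCoeff (⇑f) (pr i).1.1 ∧
        σ a = lam (locAct M pr 𝔪 (MvPolynomial.X i)) := by
  have : @FaithfulSMul ℤ (integralClosure ℤ ℂ) Algebra.toSMul :=
    (faithfulSMul_iff_algebraMap_injective _ _).mpr (RingHom.injective_int _)
  have : Algebra.IsIntegral ℤ (integralClosure ℤ ℂ) := ⟨fun x => integralClosure.isIntegral x⟩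
  obtain ⟨σ, -⟩ := exists_ringHom_extension (T := integralClosure ℤ ℂ) (Int.castRingHom K)
  obtain ⟨τ, hτ⟩ := exists_inverse_of_integers σ
  obtain ⟨f, hf, hfv⟩ := exists_eigenform_of_hom i₀ hi₀ hne
    (lam.comp (locAct M pr 𝔪).toRingHom) (fun P hP => by
      show lam (locAct M pr 𝔪 P) = 0
      rw [show locAct M pr 𝔪 P = 0 from Subtype.ext (LinearMap.ext hP), map_zero]) τ
  refine ⟨f, σ, hf, fun i => ?_⟩
  obtain ⟨b, hb, hfb⟩ := hfv i
  refine ⟨⟨τ b, map_isIntegral_int τ (integralClosure.isIntegral b)⟩, hfb.symm, ?_⟩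
  exact ((hτ ⟨τ b, _⟩ b).mpr rfl).symm.trans hb

end FermatAgent.MF.Mult

end
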