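import Fermat.Agent.HM.Trace
import Fermat.Agent.MF.WeightBound

/-!
# The old part at a prime exactly dividing the level

Forms of level `L q` supported on multiples of `q` come from level `L` by `W_q`; the two copies
of level `L` inside level `L q` meet only in zero.
-/

set_option autoImplicit false

noncomputable section

open scoped MatrixGroups ModularForm OnePoint
open UpperHalfPlane Matrix.SpecialLinearGroup CongruenceSubgroup ModularFormClass
open ModularForm (heckeU heckeT heckeDiagMatrix heckeMatrix)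

namespace FermatAgent.MF.Mult

open FermatAgent.HM

variable (D : ALData)

/-- The inclusion of level `L`. -/
def up : CuspForm (Gamma0 D.L) 2 →ₗ[ℂ] CuspForm (Gamma0 D.N) 2 := levelRaise D.L_dvd_N

/-- The second copy of level `L`. -/
def down : CuspForm (Gamma0 D.L) 2 →ₗ[ℂ] CuspForm (Gamma0 D.N) 2 where
  toFun A := D.op (up D A)
  map_add' A B := by rw [map_add, D.op_add]
  map_smul' c A := by rw [map_smul, D.op_smul]; rfl

lemma down_apply (A : CuspForm (Gamma0 D.L) 2) : down D A = D.op (up D A) := rfl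

lemma up_injective : Function.Injective (up D) := fun _ _ h =>
  DFunLike.coe_injective (congrArg (fun g : CuspForm (Gamma0 D.N) 2 => ⇑g) h)

/-- `U_q` at level `L q`. -/
abbrev uQ : Module.End ℂ (CuspForm (Gamma0 D.N) 2) := CuspForm.heckeULin 2 D.q_dvd_N

/-- `T_q` at level `L`. -/
abbrev tQ : Module.End ℂ (CuspForm (Gamma0 D.L) 2) := CuspForm.heckeTLin 2 D.prime D.not_dvd

lemma intGL_diag' (h : (!![(D.q : ℤ), 0; 0, 1] : Matrix _ _ ℤ).det ≠ 0) :
    intGL !![(D.q : ℤ), 0; 0, 1] h = heckeDiagMatrix D.q := by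
  ext i j
  rw [val_intGL, ModularForm.val_heckeDiagMatrix D.prime.ne_zero]
  fin_cases i <;> fin_cases j <;> simp

lemma coe_down (A : CuspForm (Gamma0 D.L) 2) :
    ⇑(down D A) = ⇑A ∣[(2 : ℤ)] heckeDiagMatrix D.q := by
  let γ : SL(2, ℤ) := ⟨!![1, D.y; (D.L : ℤ), (D.q : ℤ) * D.w], by
    rw [Matrix.det_fin_two_of]; linear_combination D.rel⟩
  have hγ : γ ∈ Gamma0 D.L := Gamma0_mem.mpr (by simp [γ])
  have hdet : (!![(D.q : ℤ), 0; 0, 1] : Matrix (Fin 2) (Fin 2) ℤ).det ≠ 0 := by
    simpa [Matrix.det_fin_two_of] using D.prime.ne_zero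
  have hgl : D.gl = mapGL ℝ γ * intGL !![(D.q : ℤ), 0; 0, 1] hdet := by
    rw [← intGL_coe, ← intGL_mul, ALData.gl]
    refine intGL_congr ?_ _
    ext i j
    fin_cases i <;> fin_cases j <;>
      simp [γ, ALData.mat, ALData.N, Matrix.mul_apply, Fin.sum_univ_two]
  rw [down_apply, ALData.coe_op, up, coe_levelRaise, hgl, SlashAction.slash_mul,
    SlashInvariantFormClass.slash_action_eq A _ (Subgroup.mem_map_of_mem (mapGL ℝ) hγ),
    intGL_diag' D hdet]

/-- `U_q` on the first copy. -/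
lemma uQ_up (A : CuspForm (Gamma0 D.L) 2) : uQ D (up D A) = up D (tQ D A) - down D A := by
  rw [eq_sub_iff_add_eq]
  refine DFunLike.coe_injective ?_
  rw [FunLike.coe_add, coe_down]
  rfl

lemma tr_up (A : CuspForm (Gamma0 D.L) 2) : D.tr (up D A) = ((D.q : ℂ) + 1) • A := by
  refine DFunLike.coe_injective ?_
  rw [ALData.coe_tr, ALData.trFun, FunLike.coe_smul]
  simp only [up, coe_levelRaise]
  rw [Finset.sum_congr rfl fun x _ => SlashInvariantFormClass.slash_action_eq A _
    (Subgroup.mem_map_of_mem (mapGL ℝ) (D.transversal_mem x))]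
  simp [MF.Petersson.card_onePoint, ← Nat.cast_smul_eq_nsmul ℂ]

/-- `U_q` on the second copy. -/
lemma uQ_down (A : CuspForm (Gamma0 D.L) 2) : uQ D (down D A) = (D.q : ℂ) • up D A := by
  have h := D.levelRaise_tr (up D A)
  rw [tr_up] at h
  change up D (((D.q : ℂ) + 1) • A) = up D A + uQ D (down D A) at h
  rw [map_smul, add_smul, one_smul, add_comm] at h
  exact (add_left_cancel h).symm

/-- The two copies of level `L` meet only in zero. -/
theorem eq_zero_of_up_add_down {A B : CuspForm (Gamma0 D.L) 2} (h : up D A + down D B = 0) :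
    A = 0 ∧ B = 0 := by
  have := D.fact_q
  have hop0 : D.op 0 = 0 := by simpa using D.op_smul 0 0
  have h' : up D B + down D A = 0 := by
    have h1 := congrArg D.op h
    rwa [D.op_add, hop0, down_apply D B, D.op_op, ← down_apply, add_comm] at h1
  have key : ∀ A B : CuspForm (Gamma0 D.L) 2, up D A + down D B = 0 → up D B + down D A = 0 →
      tQ D A = -(((D.q : ℂ) + 1) • B) := fun A B h h' => by
    refine up_injective D ?_
    have h1 := congrArg (uQ D) h
    rw [map_add, map_zero, uQ_up, uQ_down, eq_neg_of_add_eq_zero_right h', sub_neg_eq_add] at h1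
    rw [map_neg, map_smul, eq_neg_iff_add_eq_zero, add_smul, one_smul]
    rw [← h1]
    abel
  have hA := key A B h h'
  have hB := key B A h' h
  have hzero : ∀ (ε : ℝ) (C : CuspForm (Gamma0 D.L) 2), ε ^ 2 = 1 →
      tQ D C = ((ε * (D.q + 1) : ℝ) : ℂ) • C → C = 0 := fun ε C hε he => by
    refine MF.Petersson.eq_zero_of_heckeT_eq (q := D.q) C D.not_dvd hε ?_
    rw [← CuspForm.coe_heckeTLin_apply 2 D.prime D.not_dvd]
    exact congrArg (fun g : CuspForm (Gamma0 D.L) 2 => ⇑g) he
  have h1 : A + B = 0 := hzero (-1) _ (by norm_num) (by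
    rw [map_add, hA, hB]
    push_cast
    module)
  have h2 : A - B = 0 := hzero 1 _ (by norm_num) (by
    rw [map_sub, hA, hB]
    push_cast
    module)
  have hAB : A = B := sub_eq_zero.mp h2
  subst hAB
  refine ⟨?_, ?_⟩ <;>
  · have h3 : (2 : ℂ) • A = 0 := by rw [two_smul]; exact h1
    exact (smul_eq_zero.mp h3).resolve_left two_ne_zero

lemma det_tri (b : ℤ) : (!![1, b; 0, (D.q : ℤ)] : Matrix (Fin 2) (Fin 2) ℤ).det ≠ 0 := by
  simpa [Matrix.det_fin_two_of] using D.prime.ne_zero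

/-- A form supported on multiples of `q` has period `1/q`. -/
private lemma vadd_inv_q_eq (F : CuspForm (Gamma0 D.N) 2)
    (hF : ∀ n, ¬ D.q ∣ n → qCoeff F n = 0) (τ : ℍ) : F ((1 / D.q : ℝ) +ᵥ τ) = F τ := by
  have : Fact (IsCusp OnePoint.infty (Gamma0 D.N : Subgroup (GL (Fin 2) ℝ))) :=
    ⟨Subgroup.isCusp_of_mem_strictPeriods one_pos (MF.one_mem_periods D.N)⟩
  refine ((ModularForm.hasSum_qExpansion F one_pos (MF.one_mem_periods D.N) τ).congr_fun
    fun n => ?_).unique (ModularForm.hasSum_qExpansion F one_pos (MF.one_mem_periods D.N) _)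
    |>.symm
  by_cases hd : D.q ∣ n
  · obtain ⟨m, rfl⟩ := hd
    congr 1
    simp only [Function.Periodic.qParam, ← Complex.exp_nat_mul, coe_vadd]
    refine Complex.exp_eq_exp_iff_exists_int.mpr ⟨m, ?_⟩
    have : (D.q : ℂ) ≠ 0 := Nat.cast_ne_zero.mpr D.prime.ne_zero
    push_cast
    field_simp
    ring
  · rw [show (qExpansion 1 (⇑F)).coeff n = 0 from hF n hd, zero_mul, zero_mul]

/-- A form supported on multiples of `q` comes from level `L`. -/
theorem exists_eq_down (F : CuspForm (Gamma0 D.N) 2)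
    (hF : ∀ n, ¬ D.q ∣ n → qCoeff F n = 0) : ∃ h, F = down D h := by
  have hper := vadd_inv_q_eq D F hF
  -- all slashes by `(1 b; 0 q)` agree
  set G := ⇑F ∣[(2 : ℤ)] heckeMatrix D.q 0
  have hnat : ∀ r : ℕ, ⇑F ∣[(2 : ℤ)] heckeMatrix D.q r = G := by
    intro r
    induction r with
    | zero => rfl
    | succ r ih =>
      rw [← ih]
      funext τ
      rw [ModularForm.slash_heckeMatrix_apply 2 D.prime.ne_zero,
        ModularForm.slash_heckeMatrix_apply 2 D.prime.ne_zero]
      congr 1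
      rw [← hper (heckeMatrix D.q r • τ)]
      congr 1
      ext1
      rw [coe_vadd, ModularForm.coe_heckeMatrix_smul D.prime.ne_zero,
        ModularForm.coe_heckeMatrix_smul D.prime.ne_zero]
      push_cast
      ring
  have hint : ∀ b : ℤ, ⇑F ∣[(2 : ℤ)] intGL _ (det_tri D b) = G := by
    intro b
    set T : SL(2, ℤ) := ⟨!![1, b / (D.q : ℤ); 0, 1], by simp [Matrix.det_fin_two_of]⟩
    have hT : T ∈ Gamma0 D.N := Gamma0_mem.mpr (by simp [T])
    obtain ⟨r, hr⟩ : ∃ r : ℕ, (r : ℤ) = b % (D.q : ℤ) :=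
      ⟨_, Int.toNat_of_nonneg (Int.emod_nonneg _ D.q_ne_zero)⟩
    have he : intGL _ (det_tri D b) = mapGL ℝ T * intGL _ (det_tri D r) := by
      rw [← intGL_coe, ← intGL_mul]
      refine intGL_congr ?_ _
      ext i j
      fin_cases i <;> fin_cases j <;>
        simp [T, Matrix.mul_apply, Fin.sum_univ_two]
      rw [hr]
      linarith [Int.mul_ediv_add_emod b (D.q : ℤ)]
    rw [he, SlashAction.slash_mul,
      SlashInvariantFormClass.slash_action_eq F _ (Subgroup.mem_map_of_mem (mapGL ℝ) hT),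
      show intGL _ (det_tri D r) = heckeMatrix D.q r from
        ?_, hnat]
    ext i j
    rw [val_intGL, ModularForm.val_heckeMatrix D.prime.ne_zero]
    fin_cases i <;> fin_cases j <;> simp
  have hq : ((D.q : ℤ) • (1 : Matrix (Fin 2) (Fin 2) ℤ)).det ≠ 0 := by
    rw [Matrix.det_smul, Matrix.det_one, mul_one]
    exact pow_ne_zero _ D.q_ne_zero
  have hdiag : (!![(D.q : ℤ), 0; 0, 1] : Matrix (Fin 2) (Fin 2) ℤ).det ≠ 0 := by
    simpa [Matrix.det_fin_two_of] using D.prime.ne_zero
  have hs : (D.q : ℤ) • (1 : Matrix (Fin 2) (Fin 2) ℤ) = !![(D.q : ℤ), 0; 0, (D.q : ℤ)] := by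
    rw [Matrix.one_fin_two, Matrix.smul_of]
    simp
  -- slashing by `(1 a/q; 0 1)`
  have hfix : ∀ a : ℤ, ⇑F ∣[(2 : ℤ)] (intGL _ (det_tri D a) * intGL _ hdiag) = ⇑F := by
    intro a
    rw [SlashAction.slash_mul, hint, ← hint 0, ← SlashAction.slash_mul, ← intGL_mul]
    have e : intGL _ (by rw [Matrix.det_mul]; exact mul_ne_zero (det_tri D 0) hdiag) =
        intGL ((D.q : ℤ) • (1 : Matrix (Fin 2) (Fin 2) ℤ)) hq :=
      intGL_congr (show !![1, (0 : ℤ); 0, (D.q : ℤ)] * !![(D.q : ℤ), 0; 0, 1] = _ by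
        ext i j
        fin_cases i <;> fin_cases j <;> simp [Matrix.mul_apply, Fin.sum_univ_two]) _
    rw [e, slash_scalar_two D.prime.ne_zero]
  have hopF : ⇑(D.op F) = G := by
    -- `q • mat = (q a; 0 q) * γ * (1 b; 0 q)`
    set t : ℤ := -D.y * (1 - D.w)
    set y₁ : ℤ := t * D.q + D.y
    set γ : SL(2, ℤ) := ⟨!![(D.q : ℤ) - y₁ * D.L, -y₁ * (D.w - 1) * D.w;
      (D.N : ℤ), D.w + (D.L : ℤ) * t], by
        rw [Matrix.det_fin_two_of, ALData.N]
        push_cast
        simp only [y₁, t]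
        linear_combination (1 + (D.y * (D.w - 1) * D.q + D.y) * D.L * (D.w - 1)) * D.rel⟩
    have hγ : γ ∈ Gamma0 D.N := Gamma0_mem.mpr (by simp [γ])
    have hgl : intGL _ hq * D.gl =
        (intGL _ (det_tri D y₁) * intGL _ hdiag) * (mapGL ℝ γ * intGL _ (det_tri D (-t))) := by
      rw [ALData.gl, ← intGL_coe, ← intGL_mul, ← intGL_mul, ← intGL_mul, ← intGL_mul]
      refine intGL_congr ?_ _
      rw [hs]
      ext i j
      fin_cases i <;> fin_cases j <;>
        simp [γ, y₁, t, ALData.mat, ALData.N, Matrix.mul_apply, Fin.sum_univ_two,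
          -mul_eq_mul_left_iff, -mul_eq_mul_right_iff] <;>
        first
          | ring1
          | (linear_combination
              (-(D.q : ℤ) * (D.y + D.y * (D.w - 1) * D.q) * (D.w - 1)) * D.rel)
          | (linear_combination
              ((D.q : ℤ) * (D.y + D.y * (D.w - 1) * D.q) * (D.w - 1)) * D.rel)
    rw [ALData.coe_op, ← slash_scalar_two D.prime.ne_zero hq ⇑F, ← SlashAction.slash_mul, hgl,
      SlashAction.slash_mul, hfix, SlashAction.slash_mul,
      SlashInvariantFormClass.slash_action_eq F _ (Subgroup.mem_map_of_mem (mapGL ℝ) hγ), hint]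
  have hU : uQ D F = (D.q : ℂ) • D.op F := by
    refine DFunLike.coe_injective ?_
    show heckeU 2 D.q ⇑F = _
    rw [ModularForm.heckeU_def, Finset.sum_congr rfl fun j _ => hnat j, FunLike.coe_smul, hopF,
      Finset.sum_const, Finset.card_range, ← Nat.cast_smul_eq_nsmul ℂ]
  have htr := D.levelRaise_tr (D.op F)
  rw [D.op_op] at htr
  change up D (D.tr (D.op F)) = D.op F + uQ D F at htr
  refine ⟨((D.q : ℂ) + 1)⁻¹ • D.tr (D.op F), ?_⟩
  have hne : (D.q : ℂ) + 1 ≠ 0 := by exact_mod_cast Nat.succ_ne_zero D.q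
  have hop : D.op (D.op F + (D.q : ℂ) • D.op F) = ((D.q : ℂ) + 1) • F := by
    rw [D.op_add, D.op_smul, D.op_op, add_smul, one_smul, add_comm]
  rw [map_smul, down_apply, htr, hU, hop, inv_smul_smul₀ hne]

end FermatAgent.MF.Mult
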