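import Fermat.Agent.MF.Mult.Cut
import Fermat.Agent.MF.Mult.Old
import Fermat.Agent.HM.Newform

/-!
# No eigensystem of level `L` is new at `q` in level `L q`

An eigenform of level `L q` (`q ∤ L`) with `a_q² = 1` differs, at infinitely many good primes,
from every eigenform of level `L`.
-/

set_option autoImplicit false

noncomputable section

open scoped MatrixGroups
open UpperHalfPlane CongruenceSubgroup ModularFormClass

namespace FermatAgent.MF.Mult

open FermatAgent.HM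

lemma qCoeff_pow_eq {M M' : ℕ} {f : CuspForm (Gamma0 M) 2} {g : CuspForm (Gamma0 M') 2}
    (hf : f.IsNormalizedEigenform) (hg : g.IsNormalizedEigenform) {p : ℕ} (hp : p.Prime)
    (hM : ¬ p ∣ M) (hM' : ¬ p ∣ M') (h : qCoeff f p = qCoeff g p) (r : ℕ) :
    qCoeff f (p ^ r) = qCoeff g (p ^ r) := by
  induction r using Nat.twoStepInduction with
  | zero => rw [pow_zero, hf.qCoeff_one, hg.qCoeff_one]
  | one => rw [pow_one, h]
  | more r ih1 ih2 =>
    rw [hf.qCoeff_prime_pow_of_not_dvd p r hp hM, hg.qCoeff_prime_pow_of_not_dvd p r hp hM', h,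
      ih1, ih2]

lemma qCoeff_eq_of_good {M M' : ℕ} {f : CuspForm (Gamma0 M) 2} {g : CuspForm (Gamma0 M') 2}
    (hf : f.IsNormalizedEigenform) (hg : g.IsNormalizedEigenform) (n : ℕ)
    (h : ∀ p : ℕ, p.Prime → p ∣ n → ¬ p ∣ M ∧ ¬ p ∣ M' ∧ qCoeff f p = qCoeff g p) :
    qCoeff f n = qCoeff g n := by
  induction n using Nat.recOnPosPrimePosCoprime with
  | zero => rw [qCoeff_index_zero, qCoeff_index_zero]
  | one => rw [hf.qCoeff_one, hg.qCoeff_one]
  | prime_pow p r hp hr =>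
    obtain ⟨h1, h2, h3⟩ := h p hp (dvd_pow_self p hr.ne')
    exact qCoeff_pow_eq hf hg hp h1 h2 h3 r
  | coprime a b _ _ hab iha ihb =>
    rw [hf.qCoeff_mul_of_coprime a b hab, hg.qCoeff_mul_of_coprime a b hab,
      iha fun p hp hd => h p hp (hd.trans (dvd_mul_right a b)),
      ihb fun p hp hd => h p hp (hd.trans (dvd_mul_left b a))]

/-- **Strong multiplicity one at a prime exactly dividing the level.** -/
theorem qCoeff_sq_ne_one {L q : ℕ} [NeZero L] (hq : q.Prime) (hqL : ¬ q ∣ L)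
    {g : CuspForm (Gamma0 L) 2} (hg : g.IsNormalizedEigenform)
    {f : CuspForm (Gamma0 (L * q)) 2} (hf : f.IsNormalizedEigenform) (P : Finset ℕ)
    (heq : ∀ ℓ : ℕ, ℓ.Prime → ℓ ∉ P → ¬ ℓ ∣ L * q → qCoeff f ℓ = qCoeff g ℓ) :
    qCoeff f q ^ 2 ≠ 1 := by
  classical
  intro hsq
  have : NeZero q := ⟨hq.ne_zero⟩
  set S : Finset ℕ := (P ∪ L.primeFactors).filter fun p => p.Prime ∧ p ≠ q with hSdef
  have hS : ∀ p ∈ S, p.Prime := fun p hp => (Finset.mem_filter.mp hp).2.1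
  have hSq : ∀ p ∈ S, ¬ p ∣ q := fun p hp hd =>
    (Finset.mem_filter.mp hp).2.2 ((Nat.prime_dvd_prime_iff_eq (hS p hp) hq).mp hd)
  set c := ∏ p ∈ S, p * p with hcdef
  have : NeZero c := neZero_prod_sq hS
  have hqc : ¬ q ∣ c := fun h => by
    obtain ⟨p, hp, hd⟩ := (Prime.dvd_finsetProd_iff hq.prime _).mp h
    have he : q = p := ((hq.dvd_mul).mp hd).elim
      ((Nat.prime_dvd_prime_iff_eq hq (hS p hp)).mp ·)
      ((Nat.prime_dvd_prime_iff_eq hq (hS p hp)).mp ·)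
    exact (Finset.mem_filter.mp hp).2.2 he.symm
  obtain ⟨g', hg'⟩ := exists_cut S hS g
  obtain ⟨f₀, hf₀⟩ := exists_cut S hS f
  obtain ⟨D, hDq, hDL⟩ := ALData.exists_data (q := q) (L := L * c) hq
    (fun h => ((hq.dvd_mul).mp h).elim hqL hqc) (mul_ne_zero (NeZero.ne L) (NeZero.ne c))
  have : NeZero (L * q * c) := ⟨mul_ne_zero (NeZero.ne (L * q)) (NeZero.ne c)⟩
  have hdvd : L * q * c ∣ D.N := by
    rw [ALData.N, hDL, hDq, show L * c * q = L * q * c by ring]
  set f' : CuspForm (Gamma0 D.N) 2 := levelRaise hdvd f₀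
  obtain ⟨g', hg'⟩ : ∃ A : CuspForm (Gamma0 D.L) 2,
      ∀ n, qCoeff A n = if ∀ p ∈ S, ¬ p ∣ n then qCoeff g n else 0 :=
    ⟨levelRaise (by rw [hDL]) g', fun n => hg' n⟩
  have hf' : ∀ n, qCoeff f' n = if ∀ p ∈ S, ¬ p ∣ n then qCoeff f n else 0 := fun n => hf₀ n
  -- off `q` the forms agree
  have hsupp : ∀ n, ¬ D.q ∣ n → qCoeff (⇑(f' - up D g')) n = 0 := fun n hn => by
    rw [hDq] at hn
    rw [qCoeff_sub, hf', show qCoeff (⇑(up D g')) n = qCoeff g' n from rfl, hg']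
    split_ifs with hgood
    · rw [sub_eq_zero]
      refine qCoeff_eq_of_good hf hg n fun p hp hd => ?_
      have hpS : p ∉ S := fun h => hgood p h hd
      have hpq : p ≠ q := fun h => hn (h ▸ hd)
      rw [hSdef, Finset.mem_filter, Finset.mem_union, Nat.mem_primeFactors] at hpS
      have hpL : ¬ p ∣ L := fun h => hpS ⟨Or.inr ⟨hp, h, NeZero.ne L⟩, hp, hpq⟩
      have hpLq : ¬ p ∣ L * q := fun h => ((hp.dvd_mul).mp h).elim hpL
        fun h' => hpq ((Nat.prime_dvd_prime_iff_eq hp hq).mp h')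
      exact ⟨hpLq, hpL, heq p hp (fun h => hpS ⟨Or.inl h, hp, hpq⟩) hpLq⟩
    · rw [sub_zero]
  obtain ⟨h, hh⟩ := exists_eq_down D _ hsupp
  -- `U_q` is the scalar `a_q`
  set ε := qCoeff f q
  have hU : uQ D f' = ε • f' := by
    refine ext_of_qCoeff fun n => ?_
    rw [qCoeff_smul, show qCoeff (⇑(uQ D f')) n = qCoeff (ModularForm.heckeU 2 D.q ⇑f') n from rfl,
      ModularFormClass.qCoeff_heckeU f' (one_mem_periods D.N) D.prime.ne_zero,
      ModularForm.coeffHeckeU_apply, hDq, hf', hf']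
    have hiff : (∀ p ∈ S, ¬ p ∣ n * q) ↔ ∀ p ∈ S, ¬ p ∣ n :=
      ⟨fun h p hp hd => h p hp (hd.trans (dvd_mul_right n q)),
        fun h p hp hd => ((hS p hp).dvd_mul.mp hd).elim (h p hp) (hSq p hp)⟩
    rw [mul_ite, mul_zero]
    refine if_congr hiff ?_ rfl
    have he := congrArg (fun v : CuspForm (Gamma0 (L * q)) 2 => qCoeff v n)
      (heckeULin_apply_eigenform hf hq (dvd_mul_left q L))
    simp only [qCoeff_smul, qCoeff_heckeULin hq (dvd_mul_left q L), heckeConst,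
      if_pos (dvd_mul_left q L), zero_mul, add_zero, mul_comm q n] at he
    exact he
  have hεε : ε * ε = 1 := by rw [← pow_two]; exact hsq
  have hfe : f' = up D g' + down D h := by rw [← hh, add_sub_cancel]
  rw [hfe, map_add, uQ_up, uQ_down, smul_add] at hU
  obtain ⟨h1, h2⟩ := eq_zero_of_up_add_down D
    (A := tQ D g' + (D.q : ℂ) • h - ε • g') (B := -g' - ε • h) (by
      rw [map_sub, map_add, map_smul, map_smul, map_sub, map_neg, map_smul]
      rw [← sub_eq_zero] at hU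
      rw [← hU]
      abel)
  have hgh : g' = -(ε • h) := (neg_eq_iff_eq_neg.mp (sub_eq_zero.mp h2))
  have hhg : h = -(ε • g') := by rw [hgh, smul_neg, neg_neg, smul_smul, hεε, one_smul]
  have hT : tQ D g' = (ε * ((D.q : ℂ) + 1)) • g' := by
    have h3 := sub_eq_zero.mp h1
    rw [hhg, smul_neg, smul_smul] at h3
    rw [eq_sub_of_add_eq h3, sub_neg_eq_add, mul_add, mul_one, add_smul, mul_comm ε, add_comm]
  obtain ⟨e, he, hee⟩ : ∃ e : ℝ, e ^ 2 = 1 ∧ ε = (e : ℂ) := by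
    rcases sq_eq_one_iff.mp hsq with h | h
    · exact ⟨1, by norm_num, by rw [h, Complex.ofReal_one]⟩
    · exact ⟨-1, by norm_num, by rw [h]; push_cast; rfl⟩
  have := D.fact_q
  have hg0 : g' = 0 := MF.Petersson.eq_zero_of_heckeT_eq (q := D.q) g' D.not_dvd he (by
    rw [← CuspForm.coe_heckeTLin_apply 2 D.prime D.not_dvd,
      show (((e * ((D.q : ℕ) + 1)) : ℝ) : ℂ) = ε * ((D.q : ℂ) + 1) by rw [hee]; push_cast; rfl]
    exact congrArg (fun v : CuspForm (Gamma0 D.L) 2 => ⇑v) hT)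
  have hone := hg' 1
  rw [hg0, qCoeff_zero_fun, if_pos fun p hp hd => (hS p hp).ne_one (Nat.dvd_one.mp hd),
    hg.qCoeff_one] at hone
  exact zero_ne_one hone

end FermatAgent.MF.Mult
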