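import Fermat.Agent.MF.Mult.Main
import Fermat.Agent.HM.H1.Eigenform

/-!
# Characters of the Hecke algebra and eigenforms
-/

set_option autoImplicit false

noncomputable section

open scoped MatrixGroups
open CongruenceSubgroup ModularCurve.Period ModularFormClass

namespace FermatAgent.MF.Mult

section Char

variable {N : ℕ} [NeZero N] {S : Set ℕ} {K : Type*} [Field K]

/-- The generator at a prime outside `S`. -/
abbrev atPrime (N : ℕ) [NeZero N] (S : Set ℕ) {ℓ : ℕ} (hℓ : ℓ.Prime) (hS : ℓ ∉ S) :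
    CuspForm.heckeAlgebra N 2 S :=
  ⟨_, MF.heckeAt_mem hℓ hS⟩

/-- Values of characters of the Hecke algebra are algebraic integers. -/
lemma isIntegral_char (χ : CuspForm.heckeAlgebra N 2 S →+* K)
    (t : CuspForm.heckeAlgebra N 2 S) : IsIntegral ℤ (χ t) := by
  have : Module.Finite ℤ (CuspForm.heckeAlgebra N 2 S) := MF.moduleFinite_heckeAlgebra N 2 S
  exact map_isIntegral_int χ
    ((Algebra.IsIntegral.of_finite ℤ (CuspForm.heckeAlgebra N 2 S)).isIntegral t)

/-- A map from algebraic integers to a field of characteristic zero is injective. -/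
lemma injective_of_integers {F K : Type*} [Field F] [Field K] [CharZero K]
    (g : integralClosure ℤ F →+* K) : Function.Injective g := by
  rw [RingHom.injective_iff_ker_eq_bot]
  have : Algebra.IsIntegral ℤ (integralClosure ℤ F) := ⟨fun x => integralClosure.isIntegral x⟩
  have := RingHom.ker_isPrime g
  refine Ideal.eq_bot_of_comap_eq_bot (R := ℤ) ?_
  ext m
  simp [RingHom.mem_ker]

/-- A map of the algebraic integers of `ℂ` has an inverse on the algebraic integers of its
target. -/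
lemma exists_inverse_of_integers {K : Type} [Field K] [CharZero K]
    (σ : integralClosure ℤ ℂ →+* K) :
    ∃ τ : integralClosure ℤ K →+* ℂ,
      ∀ (x : integralClosure ℤ ℂ) (a : integralClosure ℤ K), (a : K) = σ x ↔ τ a = x := by
  let σ' : integralClosure ℤ ℂ →+* integralClosure ℤ K :=
    σ.codRestrict (integralClosure ℤ K).toSubring fun x =>
      map_isIntegral_int σ (integralClosure.isIntegral x)
  let : Algebra (integralClosure ℤ ℂ) (integralClosure ℤ K) := σ'.toAlgebra
  have : IsScalarTower ℤ (integralClosure ℤ ℂ) (integralClosure ℤ K) :=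
    IsScalarTower.of_algebraMap_eq' (Subsingleton.elim _ _)
  have : FaithfulSMul (integralClosure ℤ ℂ) (integralClosure ℤ K) :=
    (faithfulSMul_iff_algebraMap_injective _ _).mpr fun x y hxy =>
      injective_of_integers σ (congrArg Subtype.val hxy)
  have : Algebra.IsIntegral ℤ (integralClosure ℤ K) := ⟨fun x => integralClosure.isIntegral x⟩
  have : Algebra.IsIntegral (integralClosure ℤ ℂ) (integralClosure ℤ K) :=
    Algebra.IsIntegral.tower_top (R := ℤ)
  obtain ⟨τ, hτ⟩ := HM.exists_ringHom_extension (T := integralClosure ℤ K)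
    (integralClosure ℤ ℂ).val.toRingHom
  refine ⟨τ, fun x a => ?_⟩
  rw [show (x : ℂ) = τ (σ' x) from (RingHom.congr_fun hτ x).symm,
    (injective_of_integers τ).eq_iff, Subtype.ext_iff]
  rfl

variable (N S) in
/-- A simultaneous eigenvector among parabolic homomorphisms gives a character. -/
theorem exists_char [CharZero K] {x : parabolicHoms K (Gamma0 N) K} (hx : x ≠ 0) (c : ℕ → K)
    (hc : ∀ (ℓ : ℕ) (hℓ : ℓ.Prime), ℓ ∉ S → Period.heckeOp K N hℓ x.1 = c ℓ • x.1) :
    ∃ χ : CuspForm.heckeAlgebra N 2 S →+* K,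
      ∀ (ℓ : ℕ) (hℓ : ℓ.Prime) (hS : ℓ ∉ S), χ (atPrime N S hℓ hS) = c ℓ := by
  have hex : ∀ t : CuspForm.heckeAlgebra N 2 S,
      ∃ a : K, Period.parAction N S K K t x = a • x := by
    rintro ⟨t, ht⟩
    induction ht using Algebra.adjoin_induction with
    | mem e he =>
      obtain ⟨ℓ, hℓ, hS, rfl⟩ := MF.exists_eq_heckeAt_of_mem_heckeGenerators he
      refine ⟨c ℓ, Subtype.ext ?_⟩
      rw [Period.parAction_heckeAt K K hℓ hS, hc ℓ hℓ hS]
      rfl
    | algebraMap r =>
      refine ⟨(r : K), ?_⟩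
      rw [show (⟨algebraMap ℤ _ r, algebraMap_mem _ r⟩ : CuspForm.heckeAlgebra N 2 S) =
        algebraMap ℤ _ r from rfl, eq_intCast, map_intCast, Module.End.intCast_apply]
      exact (Int.cast_smul_eq_zsmul K r x).symm
    | add u v hu hv ihu ihv =>
      obtain ⟨a, ha⟩ := ihu
      obtain ⟨b, hb⟩ := ihv
      refine ⟨a + b, ?_⟩
      rw [show (⟨u + v, add_mem hu hv⟩ : CuspForm.heckeAlgebra N 2 S) = ⟨u, hu⟩ + ⟨v, hv⟩ from rfl,
        map_add, LinearMap.add_apply, ha, hb, add_smul]
    | mul u v hu hv ihu ihv =>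
      obtain ⟨a, ha⟩ := ihu
      obtain ⟨b, hb⟩ := ihv
      refine ⟨b * a, ?_⟩
      rw [show (⟨u * v, mul_mem hu hv⟩ : CuspForm.heckeAlgebra N 2 S) = ⟨u, hu⟩ * ⟨v, hv⟩ from rfl,
        map_mul, Module.End.mul_apply, hb, map_smul, ha, smul_smul]
  choose χ hχ using hex
  have uniq : ∀ t a, Period.parAction N S K K t x = a • x → χ t = a := fun t a h =>
    smul_left_injective K hx ((hχ t).symm.trans h)
  refine ⟨{ toFun := χ
            map_one' := uniq 1 1 (by rw [map_one, Module.End.one_apply, one_smul])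
            map_zero' := uniq 0 0 (by rw [map_zero, LinearMap.zero_apply, zero_smul])
            map_add' := fun u v => uniq _ _ (by
              rw [map_add, LinearMap.add_apply, hχ u, hχ v, add_smul])
            map_mul' := fun u v => uniq _ _ (by
              rw [map_mul, Module.End.mul_apply, hχ v, map_smul, hχ u, smul_smul, mul_comm]) },
    fun ℓ hℓ hS => uniq _ _ (Subtype.ext ?_)⟩
  rw [Period.parAction_heckeAt K K hℓ hS, hc ℓ hℓ hS]
  rfl

/-- A character is afforded by an eigenform, compatibly with any embedding of algebraic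
integers. -/
theorem exists_eigenform_of_char [IsAlgClosed K] (τ : integralClosure ℤ K →+* ℂ)
    (χ : CuspForm.heckeAlgebra N 2 S →+* K) :
    ∃ f : CuspForm (Gamma0 N) 2, f.IsNormalizedEigenform ∧
      ∀ (ℓ : ℕ) (hℓ : ℓ.Prime) (hS : ℓ ∉ S) (a : integralClosure ℤ K),
        (a : K) = χ (atPrime N S hℓ hS) → qCoeff f ℓ = τ a := by
  have hle : CuspForm.heckeAlgebra N 2 S ≤ CuspForm.heckeAlgebra N 2 ∅ :=
    CuspForm.heckeAlgebra_mono (Set.empty_subset S)
  let : Algebra (CuspForm.heckeAlgebra N 2 S) (CuspForm.heckeAlgebra N 2 ∅) :=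
    (Subalgebra.inclusion hle).toRingHom.toAlgebra
  have : IsScalarTower ℤ (CuspForm.heckeAlgebra N 2 S) (CuspForm.heckeAlgebra N 2 ∅) :=
    IsScalarTower.of_algebraMap_eq' (Subsingleton.elim _ _)
  have : FaithfulSMul (CuspForm.heckeAlgebra N 2 S) (CuspForm.heckeAlgebra N 2 ∅) :=
    (faithfulSMul_iff_algebraMap_injective _ _).mpr
      (Subalgebra.inclusion_injective hle)
  have : Module.Finite ℤ (CuspForm.heckeAlgebra N 2 ∅) := MF.moduleFinite_heckeAlgebra N 2 ∅
  have : Algebra.IsIntegral ℤ (CuspForm.heckeAlgebra N 2 ∅) := Algebra.IsIntegral.of_finite _ _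
  have : Algebra.IsIntegral (CuspForm.heckeAlgebra N 2 S) (CuspForm.heckeAlgebra N 2 ∅) :=
    Algebra.IsIntegral.tower_top (R := ℤ)
  obtain ⟨Φ, hΦ⟩ := HM.exists_ringHom_extension (T := CuspForm.heckeAlgebra N 2 ∅) χ
  let χ' : CuspForm.heckeAlgebra N 2 ∅ →+* ℂ :=
    τ.comp (Φ.codRestrict (integralClosure ℤ K).toSubring (isIntegral_char Φ))
  obtain ⟨f, ⟨hf, hfχ⟩, -⟩ := MF.exists_isEigen_of_hom (by norm_num : (1 : ℤ) ≤ 2) χ'
  refine ⟨f, (MF.isEigen_iff_isNormalizedEigenform f).mp hf, fun ℓ hℓ hS a ha => ?_⟩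
  have h1 : qCoeff f ℓ = χ' (atPrime N ∅ hℓ (Set.notMem_empty ℓ)) := by
    rw [← MF.qCoeff_one_heckeAt hℓ f,
      show MF.heckeAt N 2 hℓ f = _ from hfχ (atPrime N ∅ hℓ (Set.notMem_empty ℓ)),
      MF.qCoeff_smul, hf.1, mul_one]
  rw [h1]
  refine congrArg τ (Subtype.ext ?_)
  rw [ha]
  exact RingHom.congr_fun hΦ (atPrime N S hℓ hS)

end Char

end FermatAgent.MF.Mult
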