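import Fermat.Agent.HM.LevelMaps
import Fermat.Agent.MF.Eigen

/-!
# Removing the coefficients at multiples of given primes

For every finite set `S` of primes a cusp form of level `M` gives one of level `M * ∏ p²` with
the same coefficients at indices prime to `S` and zero elsewhere.
-/

set_option autoImplicit false

noncomputable section

open scoped MatrixGroups ModularForm
open UpperHalfPlane Matrix.SpecialLinearGroup CongruenceSubgroup ModularFormClass
open ModularForm (heckeU heckeT heckeDiagMatrix)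

namespace FermatAgent.MF.Mult

open FermatAgent.HM

variable {M : ℕ} [NeZero M]

lemma intGL_diag {p : ℕ} (hp : p ≠ 0) (h : (!![(p : ℤ), 0; 0, 1] : Matrix _ _ ℤ).det ≠ 0) :
    intGL !![(p : ℤ), 0; 0, 1] h = heckeDiagMatrix p := by
  ext i j
  rw [val_intGL, ModularForm.val_heckeDiagMatrix hp]
  fin_cases i <;> fin_cases j <;> simp

/-- The slash by `(p 0; 0 1)` is a form of level `M p`. -/
theorem exists_diagForm {p : ℕ} (hp : p ≠ 0) (f : CuspForm (Gamma0 M) 2) :
    haveI : NeZero p := ⟨hp⟩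
    ∃ v : CuspForm (Gamma0 (M * p)) 2, ⇑v = ⇑f ∣[(2 : ℤ)] heckeDiagMatrix p := by
  have : NeZero p := ⟨hp⟩
  have hdet : (!![(p : ℤ), 0; 0, 1] : Matrix (Fin 2) (Fin 2) ℤ).det ≠ 0 := by
    simpa [Matrix.det_fin_two_of] using hp
  have hdetq :
      ((!![(p : ℤ), 0; 0, 1] : Matrix (Fin 2) (Fin 2) ℤ).map (Int.cast : ℤ → ℚ)).det ≠ 0 := by
    rw [show ((!![(p : ℤ), 0; 0, 1] : Matrix (Fin 2) (Fin 2) ℤ).map (Int.cast : ℤ → ℚ)) =
        (Int.castRingHom ℚ).mapMatrix !![(p : ℤ), 0; 0, 1] from rfl, ← RingHom.map_det]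
    simpa using hdet
  refine ⟨ofSlashSum f (Finset.univ : Finset Unit)
    (fun _ => Matrix.GeneralLinearGroup.mkOfDetNeZero
      ((!![(p : ℤ), 0; 0, 1] : Matrix (Fin 2) (Fin 2) ℤ).map (Int.cast : ℤ → ℚ)) hdetq)
    (M * p) (⇑f ∣[(2 : ℤ)] intGL !![(p : ℤ), 0; 0, 1] hdet)
    (by rw [Fintype.sum_unique]; rfl) fun γ hγ => ?_,
    congrArg (fun g => ⇑f ∣[(2 : ℤ)] g) (intGL_diag hp hdet)⟩
  have hc := (ZMod.intCast_zmod_eq_zero_iff_dvd _ _).mp (Gamma0_mem.mp hγ)
  push_cast at hc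
  obtain ⟨c, hc⟩ := hc
  have hd := γ.det_coe
  rw [Matrix.det_fin_two, hc] at hd
  let δ : SL(2, ℤ) := ⟨!![γ 0 0, (p : ℤ) * γ 0 1; (M : ℤ) * c, γ 1 1], by
    rw [Matrix.det_fin_two_of]; linear_combination hd⟩
  have hδ : δ ∈ Gamma0 M := Gamma0_mem.mpr (by simp [δ])
  have he : !![(p : ℤ), 0; 0, 1] * (γ : Matrix (Fin 2) (Fin 2) ℤ) =
      (δ : Matrix (Fin 2) (Fin 2) ℤ) * !![(p : ℤ), 0; 0, 1] := by
    ext i j
    fin_cases i <;> fin_cases j <;> simp [δ, Matrix.mul_apply, Fin.sum_univ_two, hc] <;> ring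
  have hgl : intGL !![(p : ℤ), 0; 0, 1] hdet * mapGL ℝ γ =
      mapGL ℝ δ * intGL !![(p : ℤ), 0; 0, 1] hdet := by
    rw [← intGL_coe, ← intGL_coe, ← intGL_mul, ← intGL_mul]
    exact intGL_congr he _
  rw [ModularForm.SL_slash, ← SlashAction.slash_mul,
    show (toGL ((map (Int.castRingHom ℝ)) γ) : GL (Fin 2) ℝ) = mapGL ℝ γ from rfl, hgl,
    SlashAction.slash_mul,
    SlashInvariantFormClass.slash_action_eq f _ (Subgroup.mem_map_of_mem (mapGL ℝ) hδ)]

/-- The coefficients of the slash by `(p 0; 0 1)`. -/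
theorem exists_scaleForm {p : ℕ} (hp : p ≠ 0) (f : CuspForm (Gamma0 M) 2) :
    ∃ v : CuspForm (Gamma0 (M * p)) 2,
      ∀ n, qCoeff v n = if p ∣ n then qCoeff f (n / p) else 0 := by
  have : NeZero p := ⟨hp⟩
  obtain ⟨v, hv⟩ := exists_diagForm hp f
  set f₁ := levelRaise (dvd_mul_right M p) f
  set u := CuspForm.heckeULin 2 (dvd_mul_left p M) f₁
  have hsum : ⇑(u + v) = heckeT 2 p ⇑f := by
    rw [FunLike.coe_add, hv]
    rfl
  refine ⟨(p : ℂ)⁻¹ • v, fun n => ?_⟩
  have h := congrArg (fun g => qCoeff g n) hsum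
  simp only [qCoeff_add] at h
  rw [ModularFormClass.qCoeff_heckeT f (one_mem_periods M) hp,
    show qCoeff u n = qCoeff (heckeU 2 p ⇑f) n from rfl,
    ModularFormClass.qCoeff_heckeU f (one_mem_periods M) hp,
    ModularForm.coeffHeckeT_eq_coeffHeckeU_add, add_right_inj] at h
  rw [qCoeff_smul, h]
  have hpc : (p : ℂ) ≠ 0 := Nat.cast_ne_zero.mpr hp
  split_ifs
  · rw [show (2 : ℤ) - 1 = 1 from rfl, zpow_one, inv_mul_cancel_left₀ hpc]
  · rw [mul_zero]

/-- Removing the coefficients at the multiples of a prime. -/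
theorem exists_cut_one {p : ℕ} (hp : p.Prime) (f : CuspForm (Gamma0 M) 2) :
    haveI : NeZero p := ⟨hp.ne_zero⟩
    ∃ f' : CuspForm (Gamma0 (M * p * p)) 2,
      ∀ n, qCoeff f' n = if p ∣ n then 0 else qCoeff f n := by
  have : NeZero p := ⟨hp.ne_zero⟩
  set f₁ := levelRaise (dvd_mul_right M p) f
  set u := CuspForm.heckeULin 2 (dvd_mul_left p M) f₁
  obtain ⟨v, hv⟩ := exists_scaleForm hp.ne_zero u
  refine ⟨levelRaise (dvd_mul_right (M * p) p) f₁ - v, fun n => ?_⟩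
  rw [qCoeff_sub, hv]
  show qCoeff f n - _ = _
  split_ifs with hd
  · obtain ⟨m, rfl⟩ := hd
    rw [Nat.mul_div_cancel_left _ hp.pos, show qCoeff u m = qCoeff (heckeU 2 p ⇑f) m from rfl,
      ModularFormClass.qCoeff_heckeU f (one_mem_periods M) hp.ne_zero,
      ModularForm.coeffHeckeU_apply, mul_comm p m, sub_self]
  · rw [sub_zero]

omit [NeZero M] in
/-- A product of squares of primes is nonzero. -/
lemma neZero_prod_sq {S : Finset ℕ} (hS : ∀ p ∈ S, p.Prime) : NeZero (∏ p ∈ S, p * p) :=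
  ⟨Finset.prod_ne_zero_iff.mpr fun p hp => mul_ne_zero (hS p hp).ne_zero (hS p hp).ne_zero⟩

/-- Removing the coefficients at the multiples of the primes in `S`. -/
theorem exists_cut (S : Finset ℕ) (hS : ∀ p ∈ S, p.Prime) (f : CuspForm (Gamma0 M) 2) :
    ∃ f' : CuspForm (Gamma0 (M * ∏ p ∈ S, p * p)) 2,
      ∀ n, qCoeff f' n = if ∀ p ∈ S, ¬ p ∣ n then qCoeff f n else 0 := by
  induction S using Finset.induction_on with
  | empty =>
    have : NeZero (M * ∏ p ∈ (∅ : Finset ℕ), p * p) := ⟨by simp [NeZero.ne M]⟩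
    exact ⟨levelRaise (dvd_mul_right M _) f, fun n => by
      rw [if_pos (by simp)]; rfl⟩
  | insert a s ha ih =>
    obtain ⟨f', hf'⟩ := ih fun p hp => hS p (Finset.mem_insert_of_mem hp)
    have hap := hS a (Finset.mem_insert_self a s)
    have : NeZero a := ⟨hap.ne_zero⟩
    have : NeZero (∏ p ∈ s, p * p) := neZero_prod_sq fun p hp => hS p (Finset.mem_insert_of_mem hp)
    have : NeZero (∏ p ∈ insert a s, p * p) := neZero_prod_sq hS
    obtain ⟨g, hg⟩ := exists_cut_one hap f'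
    have hdvd : M * (∏ p ∈ s, p * p) * a * a ∣ M * ∏ p ∈ insert a s, p * p := by
      rw [Finset.prod_insert ha, show M * (∏ p ∈ s, p * p) * a * a =
        M * (a * a * ∏ p ∈ s, p * p) by ring]
    refine ⟨levelRaise hdvd g, fun n => ?_⟩
    show qCoeff g n = _
    rw [hg, hf']
    by_cases hd : a ∣ n
    · rw [if_pos hd, if_neg fun h => h a (Finset.mem_insert_self a s) hd]
    · rw [if_neg hd]
      exact if_congr ⟨fun h p hp => (Finset.mem_insert.mp hp).elim (fun e => e ▸ hd) (h p),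
        fun h p hp => h p (Finset.mem_insert_of_mem hp)⟩ rfl rfl

end FermatAgent.MF.Mult
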