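import Fermat.Agent.MF.Mult.Hom
import Fermat.Agent.HM.H1.DegeneracyMaps

/-!
# Hecke modules: the two traces and `U_q`

On the Hecke module of level `L q`, a class killed by both traces is fixed by `U_q²` up to the
character.
-/

set_option autoImplicit false

noncomputable section

open scoped MatrixGroups OnePoint
open CongruenceSubgroup ModularCurve.Period MvPolynomial

namespace FermatAgent.MF.Mult

open FermatAgent.HM

section Bad

variable {L M p : ℕ} [NeZero M] [hp : Fact p.Prime]

/-- The points of the index set of the Hecke correspondence at a prime of the level are the finite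
ones. -/
def idxEquivOfDvd (hpM : p ∣ M) : HIdx M p ≃ ZMod p where
  toFun x := x.1.elim 0 id
  invFun j := ⟨(j : OnePoint (ZMod p)), fun h => absurd h (OnePoint.coe_ne_infty j)⟩
  left_inv := by
    rintro ⟨x, hx⟩
    induction x using OnePoint.rec with
    | infty => exact absurd hpM (hx rfl)
    | coe j => rfl
  right_inv _ := rfl

omit [NeZero M] in
/-- At a prime of the level the transfer is the operator `U_p` of the period theory. -/
theorem homOp_heckeCorr_dvd {S : Type*} [CommRing S] {A : Type*} [AddCommGroup A] [Module S A]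
    (hpL : p.Coprime L) (hpM : p ∣ M) (φ : Additive (Gamma0 M) →+ A) :
    (heckeCorr (N := 1) (one_dvd M) hpL).homOp φ = Period.heckeOp S M hp.out φ := by
  have : NeZero p := ⟨hp.out.ne_zero⟩
  unfold Period.heckeOp
  rw [dif_pos hpM]
  refine Corr.homOp_eq_op _ (isIrredundant_heckeCorr (one_dvd M) hpL) _ (idxEquivOfDvd hpM)
    (fun x => ?_) φ
  obtain ⟨z, hz⟩ := x
  induction z using OnePoint.rec with
  | infty => exact absurd hpM (hz rfl)
  | coe j =>
    change (ModularForm.heckeMatrix p j.val).val = _
    rw [ModularForm.val_heckeMatrix hp.out.ne_zero]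
    ext a b
    fin_cases a <;> fin_cases b <;> simp [hRep]

end Bad

section Identities

variable (D : ALData) {N L : ℕ} {R : Type*} [CommRing R] {X : Type*} [AddCommGroup X] [Module R X]
variable {θ : (ZMod N)ˣ →* R} {hN : N ∣ D.L} {hqL : D.q.Coprime L}
variable {ι : Type} {pr : ι → HPrime L}

/-- `U_q² - θ(q)` in terms of the degeneracy maps. -/
theorem X_none_sq_eq (c : D.HighMod hN hqL pr θ X) :
    (ALData.Xq R ι) • (ALData.Xq R ι) • c =
      (ALData.Xq R ι) • D.resMod θ hN hqL pr (D.cwMod θ hN hqL pr c) -
        D.thetaQ θ hN • (D.resMod θ hN hqL pr (D.corMod θ hN hqL pr c) - c) := by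
  conv_lhs => rw [D.X_none_eq c, smul_sub, D.X_none_wMod]

/-- A class killed by both traces is fixed by `U_q²` up to `θ(q)`. -/
theorem X_none_sq_of_cor_cw {c : D.HighMod hN hqL pr θ X}
    (h1 : D.corMod θ hN hqL pr c = 0) (h2 : D.cwMod θ hN hqL pr c = 0) :
    (ALData.Xq R ι) • (ALData.Xq R ι) • c = D.thetaQ θ hN • c := by
  rw [X_none_sq_eq, h1, h2]
  simp only [map_zero, smul_zero, zero_sub, smul_neg, neg_neg]

end Identities

end FermatAgent.MF.Mult
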